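/-
S41 / CSP11 support (helper20): `SL(2, ℤ[1/q])` is generated by the elementary matrices
`u(t) = [[1,t],[0,1]]`, `l(t) = [[1,0],[t,1]]`, `t ∈ ℤ[1/q]`, in the form of an induction principle.

Source: the landed generation theorem `Amalgam95.sup_eq_DeltaQ` for `N = 1`
(`SL(2,ℤ[1/q]) = SL(2,ℤ) ⊔ δ SL(2,ℤ) δ⁻¹`, `δ = diag(q,1)`), Mathlib's
`SpecialLinearGroup.SL2Z_generators` (`S`, `T`), `S = u(-1) l(1) u(-1)`,
`δ u(t) δ⁻¹ = u(q t)`, `δ l(t) δ⁻¹ = l(t / q)`.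
-/
import Mathlib.LinearAlgebra.Matrix.FixedDetMatrices
import Fermat.Agent.S41.Amalgam95.Delta

set_option autoImplicit false

namespace Fermat.Agent.S41.CSPGen20

open Matrix Fermat.Agent.S41.Amalgam95

/-- `u(t) = [[1,t],[0,1]]` -/
def uE (t : ℚ) : SLQ := mkQ 1 t 0 1 (by ring)

/-- `l(t) = [[1,0],[t,1]]` -/
def lE (t : ℚ) : SLQ := mkQ 1 0 t 1 (by ring)

@[simp] lemma uE_00 (t : ℚ) : (uE t) 0 0 = 1 := rfl
@[simp] lemma uE_01 (t : ℚ) : (uE t) 0 1 = t := rfl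
@[simp] lemma uE_10 (t : ℚ) : (uE t) 1 0 = 0 := rfl
@[simp] lemma uE_11 (t : ℚ) : (uE t) 1 1 = 1 := rfl
@[simp] lemma lE_00 (t : ℚ) : (lE t) 0 0 = 1 := rfl
@[simp] lemma lE_01 (t : ℚ) : (lE t) 0 1 = 0 := rfl
@[simp] lemma lE_10 (t : ℚ) : (lE t) 1 0 = t := rfl
@[simp] lemma lE_11 (t : ℚ) : (lE t) 1 1 = 1 := rfl

lemma uE_eq_uQ (t : ℚ) : uE t = uQ t := rfl

/-- the subgroup cut out by a predicate closed under `1`, `*`, `⁻¹` -/
def predSubgroup (P : SLQ → Prop) (h1 : P 1) (hmul : ∀ x y, P x → P y → P (x * y))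
    (hinv : ∀ x, P x → P x⁻¹) : Subgroup SLQ where
  carrier := {x | P x}
  one_mem' := h1
  mul_mem' := fun hx hy => hmul _ _ hx hy
  inv_mem' := fun hx => hinv _ hx

lemma mem_predSubgroup (P : SLQ → Prop) (h1 : P 1) (hmul : ∀ x y, P x → P y → P (x * y))
    (hinv : ∀ x, P x → P x⁻¹) (x : SLQ) : x ∈ predSubgroup P h1 hmul hinv ↔ P x := Iff.rfl

/-- `T = u(1)` -/
lemma castSL_T : castSL ModularGroup.T = uE 1 := by
  apply ext_entries <;> simp [castSL_apply, ModularGroup.T]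

/-- `S = u(-1) l(1) u(-1)` -/
lemma castSL_S : castSL ModularGroup.S = uE (-1) * lE 1 * uE (-1) := by
  apply ext_entries
  · rw [mul_00, mul_00, mul_01]; simp [castSL_apply, ModularGroup.S]
  · rw [mul_01, mul_00, mul_01]; simp [castSL_apply, ModularGroup.S]
  · rw [mul_10, mul_10, mul_11]; simp [castSL_apply, ModularGroup.S]
  · rw [mul_11, mul_10, mul_11]; simp [castSL_apply, ModularGroup.S]

lemma conjδ_uE (q : ℕ) (hq : q ≠ 0) (t : ℚ) : conjδ q hq (uE t) = uE ((q : ℚ) * t) := by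
  apply ext_entries
  · rw [conjδ_apply, conjFun_00]; simp
  · rw [conjδ_apply, conjFun_01]; simp
  · rw [conjδ_apply, conjFun_10]; simp
  · rw [conjδ_apply, conjFun_11]; simp

lemma conjδ_lE (q : ℕ) (hq : q ≠ 0) (t : ℚ) : conjδ q hq (lE t) = lE (t / (q : ℚ)) := by
  apply ext_entries
  · rw [conjδ_apply, conjFun_00]; simp
  · rw [conjδ_apply, conjFun_01]; simp
  · rw [conjδ_apply, conjFun_10]; simp
  · rw [conjδ_apply, conjFun_11]; simp

section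

variable {q : ℕ} [hqp : Fact q.Prime]

/-- **`SL(2, ℤ[1/q])` is generated by elementary matrices** (induction principle). -/
theorem elementary_induction (P : SLQ → Prop) (h1 : P 1)
    (hmul : ∀ x y, P x → P y → P (x * y)) (hinv : ∀ x, P x → P x⁻¹)
    (hu : ∀ t, IsAway q t → P (mkQ 1 t 0 1 (by ring)))
    (hl : ∀ t, IsAway q t → P (mkQ 1 0 t 1 (by ring))) :
    ∀ x : SLQ, IsAway q (x 0 0) → IsAway q (x 0 1) → IsAway q (x 1 0) → IsAway q (x 1 1) →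
      P x := by
  have hq0 : q ≠ 0 := hqp.out.ne_zero
  set H : Subgroup SLQ := predSubgroup P h1 hmul hinv with hH
  have huH : ∀ t, IsAway q t → uE t ∈ H := fun t ht => hu t ht
  have hlH : ∀ t, IsAway q t → lE t ∈ H := fun t ht => hl t ht
  -- the subgroup of `SL(2,ℤ)` of elements whose two images lie in `H`
  set H₁ : Subgroup (Matrix.SpecialLinearGroup (Fin 2) ℤ) :=
    H.comap castSL ⊓ H.comap ((conjδ q hq0).toMonoidHom.comp castSL) with hH₁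
  have hqA : IsAway q (q : ℚ) := by simpa using IsAway.of_int (q := q) (q : ℤ)
  have hm1 : IsAway q (-1 : ℚ) := IsAway.one.neg
  have hT : ModularGroup.T ∈ H₁ := by
    refine ⟨?_, ?_⟩
    · show castSL ModularGroup.T ∈ H
      rw [castSL_T]; exact huH 1 IsAway.one
    · show conjδ q hq0 (castSL ModularGroup.T) ∈ H
      rw [castSL_T, conjδ_uE]
      exact huH _ (hqA.mul IsAway.one)
  have hS : ModularGroup.S ∈ H₁ := by
    refine ⟨?_, ?_⟩
    · show castSL ModularGroup.S ∈ H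
      rw [castSL_S]
      exact mul_mem (mul_mem (huH _ hm1) (hlH _ IsAway.one)) (huH _ hm1)
    · show conjδ q hq0 (castSL ModularGroup.S) ∈ H
      rw [castSL_S, map_mul, map_mul, conjδ_uE, conjδ_lE]
      exact mul_mem (mul_mem (huH _ (hqA.mul hm1)) (hlH _ (IsAway.one.div_q hq0)))
        (huH _ (hqA.mul hm1))
  have htop : (⊤ : Subgroup (Matrix.SpecialLinearGroup (Fin 2) ℤ)) ≤ H₁ := by
    rw [← SpecialLinearGroup.SL2Z_generators, Subgroup.closure_le]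
    intro g hg
    rcases hg with rfl | hg
    · exact hS
    · rw [Set.mem_singleton_iff] at hg
      rw [hg]; exact hT
  have hall : ∀ g : Matrix.SpecialLinearGroup (Fin 2) ℤ,
      castSL g ∈ H ∧ conjδ q hq0 (castSL g) ∈ H := fun g => htop (Subgroup.mem_top g)
  have hG : GamQ 1 ≤ H := by
    rintro x ⟨g, -, rfl⟩
    exact (hall g).1
  have hGδ : GamQδ 1 q hq0 ≤ H := by
    rintro x ⟨y, ⟨g, -, rfl⟩, rfl⟩
    exact (hall g).2
  have hqN : ¬ q ∣ 1 := hqp.out.not_dvd_one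
  have hle : DeltaQ 1 q ≤ H := by
    rw [← sup_eq_DeltaQ 1 q hqN]
    exact sup_le hG hGδ
  intro x h00 h01 h10 h11
  have hx : x ∈ DeltaQ 1 q := ⟨h00, h01, ⟨x 1 0, h10, by simp⟩, h11⟩
  exact hle hx

lemma uE_inv (t : ℚ) : (uE t)⁻¹ = uE (-t) := by
  apply ext_entries
  · rw [inv_00]; simp
  · rw [inv_01]; simp
  · rw [inv_10]; simp
  · rw [inv_11]; simp

lemma lE_inv (t : ℚ) : (lE t)⁻¹ = lE (-t) := by
  apply ext_entries
  · rw [inv_00]; simp
  · rw [inv_01]; simp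
  · rw [inv_10]; simp
  · rw [inv_11]; simp

/-- **Conjugation invariance from the elementary case.**  If a predicate `G` (a normal subgroup, as
a predicate) and a function `Ψ` are invariant under conjugation by all `u(t)`, `l(t)`,
`t ∈ ℤ[1/q]`, then they are invariant under conjugation by every `x ∈ SL(2, ℤ[1/q])`. -/
theorem conj_invariant_of_elementary {V : Type*} (Ψ : SLQ → V) (G : SLQ → Prop)
    (hu : ∀ t, IsAway q t → ∀ g, G g →
      G (mkQ 1 t 0 1 (by ring) * g * (mkQ 1 t 0 1 (by ring))⁻¹) ∧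
        Ψ (mkQ 1 t 0 1 (by ring) * g * (mkQ 1 t 0 1 (by ring))⁻¹) = Ψ g)
    (hl : ∀ t, IsAway q t → ∀ g, G g →
      G (mkQ 1 0 t 1 (by ring) * g * (mkQ 1 0 t 1 (by ring))⁻¹) ∧
        Ψ (mkQ 1 0 t 1 (by ring) * g * (mkQ 1 0 t 1 (by ring))⁻¹) = Ψ g) :
    ∀ x : SLQ, IsAway q (x 0 0) → IsAway q (x 0 1) → IsAway q (x 1 0) → IsAway q (x 1 1) →
      ∀ g, G g → G (x * g * x⁻¹) ∧ Ψ (x * g * x⁻¹) = Ψ g := by
  intro x h00 h01 h10 h11
  refine (elementary_induction (q := q)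
    (fun x => (∀ g, G g → G (x * g * x⁻¹) ∧ Ψ (x * g * x⁻¹) = Ψ g) ∧
      (∀ g, G g → G (x⁻¹ * g * x) ∧ Ψ (x⁻¹ * g * x) = Ψ g)) ?_ ?_ ?_ ?_ ?_ x h00 h01 h10 h11).1
  · refine ⟨fun g hg => ?_, fun g hg => ?_⟩ <;> simpa using hg
  · rintro x y ⟨hx1, hx2⟩ ⟨hy1, hy2⟩
    refine ⟨fun g hg => ?_, fun g hg => ?_⟩
    · have e : x * y * g * (x * y)⁻¹ = x * (y * g * y⁻¹) * x⁻¹ := by group
      rw [e]
      exact ⟨(hx1 _ (hy1 g hg).1).1, ((hx1 _ (hy1 g hg).1).2).trans (hy1 g hg).2⟩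
    · have e : (x * y)⁻¹ * g * (x * y) = y⁻¹ * (x⁻¹ * g * x) * y := by group
      rw [e]
      exact ⟨(hy2 _ (hx2 g hg).1).1, ((hy2 _ (hx2 g hg).1).2).trans (hx2 g hg).2⟩
  · rintro x ⟨hx1, hx2⟩
    refine ⟨fun g hg => ?_, fun g hg => ?_⟩
    · have e : x⁻¹ * g * x⁻¹⁻¹ = x⁻¹ * g * x := by group
      rw [e]; exact hx2 g hg
    · have e : x⁻¹⁻¹ * g * x⁻¹ = x * g * x⁻¹ := by group
      rw [e]; exact hx1 g hg
  · intro t ht
    refine ⟨hu t ht, fun g hg => ?_⟩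
    have e : (mkQ 1 t 0 1 (by ring) : SLQ)⁻¹ = mkQ 1 (-t) 0 1 (by ring) := uE_inv t
    have e2 : (mkQ 1 t 0 1 (by ring) : SLQ) = (mkQ 1 (-t) 0 1 (by ring))⁻¹ := by
      rw [← e, inv_inv]
    have := hu (-t) ht.neg g hg
    rw [e]
    rw [← e2] at this
    exact this
  · intro t ht
    refine ⟨hl t ht, fun g hg => ?_⟩
    have e : (mkQ 1 0 t 1 (by ring) : SLQ)⁻¹ = mkQ 1 0 (-t) 1 (by ring) := lE_inv t
    have e2 : (mkQ 1 0 t 1 (by ring) : SLQ) = (mkQ 1 0 (-t) 1 (by ring))⁻¹ := by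
      rw [← e, inv_inv]
    have := hl (-t) ht.neg g hg
    rw [e]
    rw [← e2] at this
    exact this

end

end Fermat.Agent.S41.CSPGen20
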